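import Mathlib

/-!
# Row LT, tower T7, leaf T7.14.3b `CountBddC` (helper263, registry 1657) -- packing core

OFF-MAIN.  Mathlib only.  A finite family of nonzero vectors `(p i, q i)` of `ℂ²` which is
pairwise `Y`-separated for the chordal metric of `ℙ¹(ℂ)`,
`Y (|p_i|² + |q_i|²)(|p_j|² + |q_j|²) ≤ |p_i q_j - q_i p_j|²`, has at most `98 / Y` members
(`0 < Y ≤ 1`): in the chart `z = q / p` (resp. `p / q`), `|z| ≤ 1`, the points are
`√Y`-separated, so the grid cell of side `√Y / 2` is injective.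
-/

set_option autoImplicit false

noncomputable section

namespace Fermat.Agent.LT.T7.H263

/-- Chordal separation in the chart `z = b / a`. -/
theorem sep_chart263 {a b c d : ℂ} (ha : a ≠ 0) (hc : c ≠ 0) {Y : ℝ} (hY : 0 ≤ Y)
    (h : Y * ((‖a‖ ^ 2 + ‖b‖ ^ 2) * (‖c‖ ^ 2 + ‖d‖ ^ 2)) ≤ ‖a * d - b * c‖ ^ 2) :
    Y ≤ ‖d / c - b / a‖ ^ 2 := by
  have ha' : 0 < ‖a‖ ^ 2 := by positivity
  have hc' : 0 < ‖c‖ ^ 2 := by positivity
  have hfac : a * d - b * c = a * c * (d / c - b / a) := by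
    field_simp
  have hnorm : ‖a * d - b * c‖ ^ 2 = ‖a‖ ^ 2 * ‖c‖ ^ 2 * ‖d / c - b / a‖ ^ 2 := by
    rw [hfac, norm_mul, norm_mul]
    ring
  rw [hnorm] at h
  have h1 : Y * (‖a‖ ^ 2 * ‖c‖ ^ 2) ≤ Y * ((‖a‖ ^ 2 + ‖b‖ ^ 2) * (‖c‖ ^ 2 + ‖d‖ ^ 2)) := by
    refine mul_le_mul_of_nonneg_left ?_ hY
    refine mul_le_mul ?_ ?_ hc'.le (by positivity)
    · nlinarith [sq_nonneg ‖b‖]
    · nlinarith [sq_nonneg ‖d‖]
  have h2 : Y * (‖a‖ ^ 2 * ‖c‖ ^ 2) ≤ ‖d / c - b / a‖ ^ 2 * (‖a‖ ^ 2 * ‖c‖ ^ 2) := by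
    calc Y * (‖a‖ ^ 2 * ‖c‖ ^ 2) ≤ _ := h1
      _ ≤ ‖a‖ ^ 2 * ‖c‖ ^ 2 * ‖d / c - b / a‖ ^ 2 := h
      _ = _ := by ring
  exact le_of_mul_le_mul_right h2 (mul_pos ha' hc')

/-- The chart coordinate: `q / p` if `|q| ≤ |p|`, else `p / q`. -/
def chartZ263 (p q : ℂ) : ℂ := if ‖q‖ ≤ ‖p‖ then q / p else p / q

theorem norm_chartZ_le263 (p q : ℂ) : ‖chartZ263 p q‖ ≤ 1 := by
  unfold chartZ263
  split_ifs with h
  · rw [norm_div]
    exact div_le_one_of_le₀ h (norm_nonneg _)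
  · rw [norm_div]
    exact div_le_one_of_le₀ (le_of_lt (not_le.mp h)) (norm_nonneg _)

/-- The grid cell of a point of `ℙ¹(ℂ)`. -/
def cell263 (s : ℝ) (p q : ℂ) : Bool × ℤ × ℤ :=
  (decide (‖q‖ ≤ ‖p‖), ⌊(chartZ263 p q).re / s⌋, ⌊(chartZ263 p q).im / s⌋)

theorem abs_sub_lt_of_floor_eq263 {s x y : ℝ} (hs : 0 < s) (h : ⌊x / s⌋ = ⌊y / s⌋) :
    |x - y| < s := by
  have h1 := Int.abs_sub_lt_one_of_floor_eq_floor h
  have h2 : x / s - y / s = (x - y) / s := by ring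
  rw [h2, abs_div, abs_of_pos hs, div_lt_one hs] at h1
  exact h1

theorem floor_mem_Icc263 {s x : ℝ} (hs : 0 < s) (hx : |x| ≤ 1) :
    ⌊x / s⌋ ∈ Finset.Icc (-⌈1 / s⌉) ⌈1 / s⌉ := by
  rw [Finset.mem_Icc]
  have hx1 := (abs_le.mp hx).1
  have hx2 := (abs_le.mp hx).2
  constructor
  · rw [← Int.floor_neg]
    refine Int.floor_le_floor ?_
    rw [neg_le, ← neg_div]
    exact div_le_div_of_nonneg_right (by linarith) hs.le
  · refine (Int.floor_le_ceil _).trans (Int.ceil_le_ceil ?_)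
    exact div_le_div_of_nonneg_right hx2 hs.le

/-- Two separated points lie in different cells. -/
theorem cell_ne263 {p q p' q' : ℂ} (h0 : p ≠ 0 ∨ q ≠ 0) (h0' : p' ≠ 0 ∨ q' ≠ 0) {Y : ℝ}
    (hY : 0 < Y)
    (h : Y * ((‖p‖ ^ 2 + ‖q‖ ^ 2) * (‖p'‖ ^ 2 + ‖q'‖ ^ 2)) ≤ ‖p * q' - q * p'‖ ^ 2) :
    cell263 (Real.sqrt Y / 2) p q ≠ cell263 (Real.sqrt Y / 2) p' q' := by
  intro hcell
  have hs : 0 < Real.sqrt Y / 2 := by positivity
  unfold cell263 at hcell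
  simp only [Prod.mk.injEq, decide_eq_decide] at hcell
  obtain ⟨hb, hre, him⟩ := hcell
  have hre' := abs_sub_lt_of_floor_eq263 hs hre
  have him' := abs_sub_lt_of_floor_eq263 hs him
  -- the chart distance is small
  have hsmall : ‖chartZ263 p' q' - chartZ263 p q‖ ^ 2 < Y := by
    rw [Complex.sq_norm, Complex.normSq_apply, Complex.sub_re, Complex.sub_im]
    have e1 : ((chartZ263 p' q').re - (chartZ263 p q).re) ^ 2 < (Real.sqrt Y / 2) ^ 2 := by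
      rw [abs_sub_comm] at hre'
      exact sq_lt_sq' (by linarith [(abs_lt.mp hre').1]) (abs_lt.mp hre').2
    have e2 : ((chartZ263 p' q').im - (chartZ263 p q).im) ^ 2 < (Real.sqrt Y / 2) ^ 2 := by
      rw [abs_sub_comm] at him'
      exact sq_lt_sq' (by linarith [(abs_lt.mp him').1]) (abs_lt.mp him').2
    have e3 : (Real.sqrt Y / 2) ^ 2 = Y / 4 := by
      rw [div_pow, Real.sq_sqrt hY.le]; norm_num
    rw [e3] at e1 e2
    nlinarith
  -- the chart distance is large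
  have hlarge : Y ≤ ‖chartZ263 p' q' - chartZ263 p q‖ ^ 2 := by
    by_cases hc : ‖q‖ ≤ ‖p‖
    · have hc' : ‖q'‖ ≤ ‖p'‖ := hb.mp hc
      have hp : p ≠ 0 := by
        rintro rfl
        rw [norm_zero] at hc
        have : q = 0 := norm_le_zero_iff.mp hc
        exact h0.elim (fun h => h rfl) (fun h => h this)
      have hp' : p' ≠ 0 := by
        rintro rfl
        rw [norm_zero] at hc'
        have : q' = 0 := norm_le_zero_iff.mp hc'
        exact h0'.elim (fun h => h rfl) (fun h => h this)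
      have := sep_chart263 hp hp' hY.le h
      unfold chartZ263
      rw [if_pos hc, if_pos hc']
      exact this
    · have hc' : ¬ ‖q'‖ ≤ ‖p'‖ := fun h => hc (hb.mpr h)
      have hq : q ≠ 0 := by
        rintro rfl
        rw [norm_zero] at hc
        exact hc (norm_nonneg _)
      have hq' : q' ≠ 0 := by
        rintro rfl
        rw [norm_zero] at hc'
        exact hc' (norm_nonneg _)
      have h' : Y * ((‖q‖ ^ 2 + ‖p‖ ^ 2) * (‖q'‖ ^ 2 + ‖p'‖ ^ 2)) ≤ ‖q * p' - p * q'‖ ^ 2 := by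
        rw [norm_sub_rev, add_comm (‖q‖ ^ 2), add_comm (‖q'‖ ^ 2)]
        exact h
      have := sep_chart263 hq hq' hY.le h'
      unfold chartZ263
      rw [if_neg hc, if_neg hc']
      exact this
  exact absurd hlarge (not_le.mpr hsmall)

theorem cell_mem263 {s : ℝ} (hs : 0 < s) (p q : ℂ) :
    cell263 s p q ∈ (Finset.univ : Finset Bool) ×ˢ
      (Finset.Icc (-⌈1 / s⌉) ⌈1 / s⌉ ×ˢ Finset.Icc (-⌈1 / s⌉) ⌈1 / s⌉) := by
  have hz := norm_chartZ_le263 p q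
  unfold cell263
  simp only [Finset.mem_product, Finset.mem_univ, true_and]
  exact ⟨floor_mem_Icc263 hs ((Complex.abs_re_le_norm _).trans hz),
    floor_mem_Icc263 hs ((Complex.abs_im_le_norm _).trans hz)⟩

/-- **Packing bound.** -/
theorem pack263 {ι : Type*} (T : Finset ι) (p q : ι → ℂ) (Y : ℝ) (hY : 0 < Y) (hY1 : Y ≤ 1)
    (hne : ∀ i ∈ T, p i ≠ 0 ∨ q i ≠ 0)
    (hsep : ∀ i ∈ T, ∀ j ∈ T, i ≠ j →
      Y * ((‖p i‖ ^ 2 + ‖q i‖ ^ 2) * (‖p j‖ ^ 2 + ‖q j‖ ^ 2)) ≤ ‖p i * q j - q i * p j‖ ^ 2) :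
    Y * (T.card : ℝ) ≤ 98 := by
  set s : ℝ := Real.sqrt Y / 2 with hs_def
  have hsqrt : 0 < Real.sqrt Y := Real.sqrt_pos.mpr hY
  have hs : 0 < s := by positivity
  set N : ℤ := ⌈1 / s⌉ with hN_def
  have hinj : Set.InjOn (fun i => cell263 s (p i) (q i)) (T : Set ι) := by
    intro i hi j hj hij
    by_contra hne'
    exact cell_ne263 (hne i hi) (hne j hj) hY (hsep i hi j hj hne') hij
  have hmaps : ∀ i ∈ T, (fun i => cell263 s (p i) (q i)) i ∈
      (Finset.univ : Finset Bool) ×ˢ (Finset.Icc (-N) N ×ˢ Finset.Icc (-N) N) :=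
    fun i _ => cell_mem263 hs (p i) (q i)
  have hcard := Finset.card_le_card_of_injOn _ hmaps hinj
  rw [Finset.card_product, Finset.card_product, Finset.card_univ, Fintype.card_bool,
    Int.card_Icc] at hcard
  have hN0 : 0 ≤ N := Int.ceil_nonneg (by positivity)
  have hNlt : (N : ℝ) < 1 / s + 1 := Int.ceil_lt_add_one _
  have htoNat : (((N + 1 - -N).toNat : ℕ) : ℝ) = 2 * (N : ℝ) + 1 := by
    have h1 : ((N + 1 - -N).toNat : ℤ) = 2 * N + 1 := by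
      rw [Int.toNat_of_nonneg (by linarith)]
      ring
    have h2 : (((N + 1 - -N).toNat : ℤ) : ℝ) = ((2 * N + 1 : ℤ) : ℝ) := by rw [h1]
    push_cast at h2
    exact h2
  have hcardR : (T.card : ℝ) ≤ 2 * ((2 * (N : ℝ) + 1) * (2 * (N : ℝ) + 1)) := by
    have := (Nat.cast_le (α := ℝ)).mpr hcard
    push_cast at this
    rw [htoNat] at this
    exact this
  have hsqrt1 : Real.sqrt Y ≤ 1 := Real.sqrt_le_one.mpr hY1 |> fun h => by simpa using h
  have hbound : 2 * (N : ℝ) + 1 ≤ 7 / Real.sqrt Y := by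
    have e1 : 1 / s = 2 / Real.sqrt Y := by
      rw [hs_def]; field_simp
    rw [e1] at hNlt
    have e2 : 2 * (2 / Real.sqrt Y + 1) + 1 = 4 / Real.sqrt Y + 3 := by ring
    have e3 : (3 : ℝ) ≤ 3 / Real.sqrt Y := by
      rw [le_div_iff₀ hsqrt]; nlinarith
    have e4 : 4 / Real.sqrt Y + 3 / Real.sqrt Y = 7 / Real.sqrt Y := by ring
    linarith
  have hpos : 0 ≤ 2 * (N : ℝ) + 1 := by
    have : (0 : ℝ) ≤ N := by exact_mod_cast hN0
    linarith
  have hsq : (2 * (N : ℝ) + 1) * (2 * (N : ℝ) + 1) ≤ 49 / Y := by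
    have h1 : (2 * (N : ℝ) + 1) * (2 * (N : ℝ) + 1) ≤ (7 / Real.sqrt Y) * (7 / Real.sqrt Y) :=
      mul_le_mul hbound hbound hpos (hpos.trans hbound)
    have h2 : (7 / Real.sqrt Y) * (7 / Real.sqrt Y) = 49 / Y := by
      rw [div_mul_div_comm, Real.mul_self_sqrt hY.le]; norm_num
    rw [h2] at h1
    exact h1
  calc Y * (T.card : ℝ) ≤ Y * (2 * (49 / Y)) := by
        refine mul_le_mul_of_nonneg_left (hcardR.trans ?_) hY.le
        linarith
    _ = 98 := by field_simp; norm_num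

end Fermat.Agent.LT.T7.H263

end
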