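import Mathlib
import Fermat.Agent.LT.T7.H671.CountSpec
import Fermat.Agent.LT.T1.H309.AdNorm
import Fermat.Agent.LT.T7.H263.Pack

/-!
# Row LT, tower T7, leaf T7.14.3b `CountBddC` (helper263, registry 1657)

OFF-MAIN.  `countBddC263 K : H671.CountBddC K`, VERBATIM vs `LT/T7/H671/CountSpec.lean`
(helper671, sha256 4766156d, byte-identical copy), UNCONDITIONAL, constant `C = 98`.
Uses `T1/H309/AdNorm.lean` (helper309: positivity, multiplicativity, product formula) and the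
packing core `Pack.lean`.  No reduction theory.

Route (pigeonhole at one complex place, the route of the spare row 1716 of helper67):
for two distinct points `x, x'` of `ℙ¹(K)` with rows `r = x g`, `r' = x' g`, the adele
`D = r₀ r₁' - r₁ r₀' = δ · det g`, `δ ∈ Kˣ`, has `‖D‖_𝔸 = ‖det g‖_𝔸` (product formula);
`|D|_v ≤ max|r|_v max|r'|_v` at the finite places, `|D|_w² ≤ (|r₀|² + |r₁|²)(|r₀'|² + |r₁'|²)`
at the infinite places.  So if both heights are `≥ Y`, then at any fixed infinite place `w₀`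
`Y (|r₀|² + |r₁|²)(|r₀'|² + |r₁'|²) ≤ |D|_{w₀}²`: the points are `√Y`-separated on `ℙ¹(ℂ)`.
-/

set_option autoImplicit false

open AutomorphicForm IsDedekindDomain NumberField Filter Topology MeasureTheory

noncomputable section

namespace Fermat.Agent.LT.T7.H263

open Fermat.Agent.LT.H556 Fermat.Agent.LT.H556.A0 Fermat.Agent.LT.T7 Fermat.Agent.LT.T7.Rigid

variable {K : Type} [Field K] [NumberField K]

/-! ## Matrix algebra -/

theorem rowOf_eq_vecMul263 (x : Fin 2 → K) (g : G K) :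
    rowOf x g = Matrix.vecMul (fun k => algebraMap K (Adl K) (x k))
      (g : Matrix (Fin 2) (Fin 2) (Adl K)) := by
  funext j
  simp [rowOf, Matrix.vecMul, dotProduct, Fin.sum_univ_two]

/-- `x = (x g) g⁻¹`. -/
theorem rowOf_inv263 (x : Fin 2 → K) (g : G K) (i : Fin 2) :
    rowOf x g 0 * ((g⁻¹ : G K) : Matrix (Fin 2) (Fin 2) (Adl K)) 0 i
      + rowOf x g 1 * ((g⁻¹ : G K) : Matrix (Fin 2) (Fin 2) (Adl K)) 1 i
      = algebraMap K (Adl K) (x i) := by
  have h : Matrix.vecMul (rowOf x g) ((g⁻¹ : G K) : Matrix (Fin 2) (Fin 2) (Adl K))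
      = fun k => algebraMap K (Adl K) (x k) := by
    rw [rowOf_eq_vecMul263, Matrix.vecMul_vecMul]
    have h1 : (g : Matrix (Fin 2) (Fin 2) (Adl K))
        * ((g⁻¹ : G K) : Matrix (Fin 2) (Fin 2) (Adl K)) = 1 := by
      rw [← Units.val_mul, mul_inv_cancel, Units.val_one]
    rw [h1, Matrix.vecMul_one]
  have h2 := congrFun h i
  simpa [Matrix.vecMul, dotProduct, Fin.sum_univ_two] using h2

/-- The determinant of two rows. -/
theorem det_rows263 (x x' : Fin 2 → K) (g : G K) :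
    rowOf x g 0 * rowOf x' g 1 - rowOf x g 1 * rowOf x' g 0
      = algebraMap K (Adl K) (x 0 * x' 1 - x 1 * x' 0)
        * Matrix.det (g : Matrix (Fin 2) (Fin 2) (Adl K)) := by
  rw [Matrix.det_fin_two, map_sub, map_mul, map_mul]
  unfold rowOf
  ring

omit [NumberField K] in
/-- Distinct points of `ℙ¹(K)` have linearly independent representatives. -/
theorem det_rep_ne_zero263 {x x' : Projectivization K (Fin 2 → K)} (h : x ≠ x') :
    x.rep 0 * x'.rep 1 - x.rep 1 * x'.rep 0 ≠ 0 := by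
  intro hδ
  apply h
  rw [← x.mk_rep, ← x'.mk_rep, Projectivization.mk_eq_mk_iff']
  have hx := x.rep_nonzero
  have hx' := x'.rep_nonzero
  have hδ' : x.rep 0 * x'.rep 1 = x.rep 1 * x'.rep 0 := sub_eq_zero.mp hδ
  by_cases h0 : x'.rep 0 = 0
  · have h1 : x'.rep 1 ≠ 0 := by
      intro h1
      apply hx'
      funext i
      fin_cases i
      · exact h0
      · exact h1
    have hx0 : x.rep 0 = 0 := by
      rw [h0, mul_zero] at hδ'
      exact (mul_eq_zero.mp hδ').resolve_right h1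
    refine ⟨x.rep 1 / x'.rep 1, ?_⟩
    funext i
    fin_cases i
    · simp [h0, hx0]
    · simp only [Pi.smul_apply, smul_eq_mul]
      exact div_mul_cancel₀ _ h1
  · refine ⟨x.rep 0 / x'.rep 0, ?_⟩
    funext i
    fin_cases i
    · simp only [Pi.smul_apply, smul_eq_mul]
      exact div_mul_cancel₀ _ h0
    · simp only [Pi.smul_apply, smul_eq_mul]
      show x.rep 0 / x'.rep 0 * x'.rep 1 = x.rep 1
      rw [div_mul_eq_mul_div, hδ']
      exact mul_div_cancel_right₀ _ h0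

/-! ## The module of the determinant -/

theorem adNorm_det_pos263 (g : G K) :
    0 < Fermat.Agent.LT.T5.adNorm (Matrix.det (g : Matrix (Fin 2) (Fin 2) (Adl K))) :=
  Fermat.Agent.LT.T1.H309.adNorm_pos309 K (Matrix.GeneralLinearGroup.det g)

/-- The idele `δ · det g`. -/
def rowsUnit263 (δ : K) (hδ : δ ≠ 0) (g : G K) : (Adl K)ˣ :=
  Fermat.Agent.LT.T1.ratUnit K (Units.mk0 δ hδ) * Matrix.GeneralLinearGroup.det g

theorem rowsUnit_val263 (δ : K) (hδ : δ ≠ 0) (g : G K) :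
    (rowsUnit263 δ hδ g : Adl K)
      = algebraMap K (Adl K) δ * Matrix.det (g : Matrix (Fin 2) (Fin 2) (Adl K)) := rfl

theorem adNorm_rowsUnit263 (δ : K) (hδ : δ ≠ 0) (g : G K) :
    Fermat.Agent.LT.T5.adNorm (rowsUnit263 δ hδ g : Adl K)
      = Fermat.Agent.LT.T5.adNorm (Matrix.det (g : Matrix (Fin 2) (Fin 2) (Adl K))) := by
  have h1 := Fermat.Agent.LT.T1.H309.adNorm_mul309 K
    (Fermat.Agent.LT.T1.ratUnit K (Units.mk0 δ hδ)) (Matrix.GeneralLinearGroup.det g)
  have h2 := Fermat.Agent.LT.T1.H309.adNorm_ratUnit309 K (Units.mk0 δ hδ)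
  rw [h2, one_mul] at h1
  exact h1

/-! ## Finite places -/

theorem eventually_norm_le_one263 (a : Adl K) :
    ∀ᶠ v : HeightOneSpectrum (𝓞 K) in Filter.cofinite, ‖a.2 v‖ ≤ 1 := by
  have h := a.2.2
  refine h.mono fun v hv => ?_
  rw [Valued.toNormedField.norm_le_one_iff]
  exact hv

theorem norm_add_le_max263 (v : HeightOneSpectrum (𝓞 K)) (a b : v.adicCompletion K) :
    ‖a + b‖ ≤ max ‖a‖ ‖b‖ :=
  IsUltrametricDist.norm_add_le_max a b

theorem norm_sub_le_max263 (v : HeightOneSpectrum (𝓞 K)) (a b : v.adicCompletion K) :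
    ‖a - b‖ ≤ max ‖a‖ ‖b‖ := by
  have h := norm_add_le_max263 v a (-b)
  rwa [← sub_eq_add_neg, norm_neg] at h

/-- `|a b + c d|_v ≤ max(|a|, |c|)` if `|b|, |d| ≤ 1`. -/
theorem norm_comb_le263 (v : HeightOneSpectrum (𝓞 K)) (a b c d : v.adicCompletion K)
    (hb : ‖b‖ ≤ 1) (hd : ‖d‖ ≤ 1) : ‖a * b + c * d‖ ≤ max ‖a‖ ‖c‖ := by
  refine (norm_add_le_max263 v _ _).trans ?_
  rw [norm_mul, norm_mul]
  refine max_le_max ?_ ?_
  · exact mul_le_of_le_one_right (norm_nonneg _) hb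
  · exact mul_le_of_le_one_right (norm_nonneg _) hd

/-- The local factors of `rowNorm` are `1` at almost all finite places. -/
theorem hasFiniteMulSupport_rowMax263 (x : Fin 2 → K) (hx : x ≠ 0) (g : G K) :
    Function.HasFiniteMulSupport fun v : HeightOneSpectrum (𝓞 K) =>
      max ‖(rowOf x g 0).2 v‖ ‖(rowOf x g 1).2 v‖ := by
  -- a nonzero coordinate
  obtain ⟨i₀, hi₀⟩ : ∃ i, x i ≠ 0 := by
    by_contra hcon
    push Not at hcon
    exact hx (funext hcon)
  have hg : ∀ i j, ∀ᶠ v : HeightOneSpectrum (𝓞 K) in Filter.cofinite,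
      ‖((g : Matrix (Fin 2) (Fin 2) (Adl K)) i j).2 v‖ ≤ 1 :=
    fun i j => eventually_norm_le_one263 _
  have hgi : ∀ i j, ∀ᶠ v : HeightOneSpectrum (𝓞 K) in Filter.cofinite,
      ‖(((g⁻¹ : G K) : Matrix (Fin 2) (Fin 2) (Adl K)) i j).2 v‖ ≤ 1 :=
    fun i j => eventually_norm_le_one263 _
  have hxi : ∀ i, ∀ᶠ v : HeightOneSpectrum (𝓞 K) in Filter.cofinite,
      ‖(algebraMap K (Adl K) (x i)).2 v‖ ≤ 1 :=
    fun i => eventually_norm_le_one263 _
  have hx1 : ∀ᶠ v : HeightOneSpectrum (𝓞 K) in Filter.cofinite,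
      ‖(algebraMap K (Adl K) (x i₀)).2 v‖ = 1 := by
    have h := Fermat.Agent.LT.T1.H309.hasFiniteMulSupport309 K
      (Fermat.Agent.LT.T1.ratUnit K (Units.mk0 (x i₀) hi₀))
    rw [Filter.eventually_cofinite]
    refine h.subset fun v hv => ?_
    simp only [Function.mem_mulSupport]
    exact hv
  have hall : ∀ᶠ v : HeightOneSpectrum (𝓞 K) in Filter.cofinite,
      max ‖(rowOf x g 0).2 v‖ ‖(rowOf x g 1).2 v‖ = 1 := by
    filter_upwards [hg 0 0, hg 0 1, hg 1 0, hg 1 1, hgi 0 i₀, hgi 1 i₀, hxi 0, hxi 1, hx1]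
      with v g00 g01 g10 g11 gi0 gi1 x0 x1 hxv
    refine le_antisymm ?_ ?_
    · refine max_le ?_ ?_
      · have h := norm_comb_le263 v ((algebraMap K (Adl K) (x 0)).2 v)
          (((g : Matrix (Fin 2) (Fin 2) (Adl K)) 0 0).2 v) ((algebraMap K (Adl K) (x 1)).2 v)
          (((g : Matrix (Fin 2) (Fin 2) (Adl K)) 1 0).2 v) g00 g10
        exact h.trans (max_le x0 x1)
      · have h := norm_comb_le263 v ((algebraMap K (Adl K) (x 0)).2 v)
          (((g : Matrix (Fin 2) (Fin 2) (Adl K)) 0 1).2 v) ((algebraMap K (Adl K) (x 1)).2 v)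
          (((g : Matrix (Fin 2) (Fin 2) (Adl K)) 1 1).2 v) g01 g11
        exact h.trans (max_le x0 x1)
    · have h := norm_comb_le263 v ((rowOf x g 0).2 v)
        ((((g⁻¹ : G K) : Matrix (Fin 2) (Fin 2) (Adl K)) 0 i₀).2 v) ((rowOf x g 1).2 v)
        ((((g⁻¹ : G K) : Matrix (Fin 2) (Fin 2) (Adl K)) 1 i₀).2 v) gi0 gi1
      have e : (rowOf x g 0).2 v * (((g⁻¹ : G K) : Matrix (Fin 2) (Fin 2) (Adl K)) 0 i₀).2 v
          + (rowOf x g 1).2 v * (((g⁻¹ : G K) : Matrix (Fin 2) (Fin 2) (Adl K)) 1 i₀).2 v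
          = (algebraMap K (Adl K) (x i₀)).2 v := by
        rw [← rowOf_inv263 x g i₀]
        rfl
      rw [e, hxv] at h
      exact h
  rw [Filter.eventually_cofinite] at hall
  refine hall.subset fun v hv => ?_
  simp only [Function.mem_mulSupport] at hv
  exact hv

theorem finprod_le_finprod263 {ι : Type*} {f g : ι → ℝ} (hf : Function.HasFiniteMulSupport f)
    (hg : Function.HasFiniteMulSupport g) (h0 : ∀ i, 0 ≤ f i) (hfg : ∀ i, f i ≤ g i) :
    ∏ᶠ i, f i ≤ ∏ᶠ i, g i := by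
  classical
  have hf0 : (Function.mulSupport f).Finite := hf
  have hg0 : (Function.mulSupport g).Finite := hg
  have hf' : Function.mulSupport f ⊆ ((hf0.toFinset ∪ hg0.toFinset : Finset ι) : Set ι) := by
    intro i hi
    rw [Finset.coe_union, Set.Finite.coe_toFinset, Set.Finite.coe_toFinset]
    exact Or.inl hi
  have hg' : Function.mulSupport g ⊆ ((hf0.toFinset ∪ hg0.toFinset : Finset ι) : Set ι) := by
    intro i hi
    rw [Finset.coe_union, Set.Finite.coe_toFinset, Set.Finite.coe_toFinset]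
    exact Or.inr hi
  rw [finprod_eq_prod_of_mulSupport_subset f hf', finprod_eq_prod_of_mulSupport_subset g hg']
  exact Finset.prod_le_prod (fun i _ => h0 i) (fun i _ => hfg i)

/-- The finite part of the Hadamard inequality. -/
theorem fin_det_le263 (r r' : Fin 2 → Adl K) (D : (Adl K)ˣ)
    (hD : (D : Adl K) = r 0 * r' 1 - r 1 * r' 0)
    (hr : Function.HasFiniteMulSupport fun v : HeightOneSpectrum (𝓞 K) =>
      max ‖(r 0).2 v‖ ‖(r 1).2 v‖)
    (hr' : Function.HasFiniteMulSupport fun v : HeightOneSpectrum (𝓞 K) =>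
      max ‖(r' 0).2 v‖ ‖(r' 1).2 v‖) :
    ∏ᶠ v : HeightOneSpectrum (𝓞 K), ‖(D : Adl K).2 v‖
      ≤ (∏ᶠ v : HeightOneSpectrum (𝓞 K), max ‖(r 0).2 v‖ ‖(r 1).2 v‖)
        * ∏ᶠ v : HeightOneSpectrum (𝓞 K), max ‖(r' 0).2 v‖ ‖(r' 1).2 v‖ := by
  rw [← finprod_mul_distrib hr hr']
  refine finprod_le_finprod263 (Fermat.Agent.LT.T1.H309.hasFiniteMulSupport309 K D) ?_
    (fun v => norm_nonneg _) ?_
  · exact (hr.union hr').subset (Function.mulSupport_mul _ _)
  · intro v
    have e : (D : Adl K).2 v = (r 0).2 v * (r' 1).2 v - (r 1).2 v * (r' 0).2 v := by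
      rw [hD]
      rfl
    rw [e]
    refine (norm_sub_le_max263 v _ _).trans ?_
    rw [norm_mul, norm_mul]
    refine max_le ?_ ?_
    · exact mul_le_mul (le_max_left _ _) (le_max_right _ _) (norm_nonneg _)
        (le_max_of_le_left (norm_nonneg _))
    · exact mul_le_mul (le_max_right _ _) (le_max_left _ _) (norm_nonneg _)
        (le_max_of_le_left (norm_nonneg _))

/-! ## Infinite places -/

/-- Hadamard's inequality in a normed field. -/
theorem hadamard263 {F : Type*} [NormedField F] (a b c d : F) :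
    ‖a * d - b * c‖ ^ 2 ≤ (‖a‖ ^ 2 + ‖b‖ ^ 2) * (‖c‖ ^ 2 + ‖d‖ ^ 2) := by
  have h1 : ‖a * d - b * c‖ ≤ ‖a‖ * ‖d‖ + ‖b‖ * ‖c‖ := by
    refine (norm_sub_le _ _).trans ?_
    rw [norm_mul, norm_mul]
  have h2 : ‖a * d - b * c‖ ^ 2 ≤ (‖a‖ * ‖d‖ + ‖b‖ * ‖c‖) ^ 2 :=
    pow_le_pow_left₀ (norm_nonneg _) h1 2
  nlinarith [sq_nonneg (‖a‖ * ‖c‖ - ‖b‖ * ‖d‖)]

/-- The archimedean local factor of `rowNorm`. -/
def archN263 (r : Fin 2 → Adl K) (w : InfinitePlace K) : ℝ :=
  ‖(r 0).1 w‖ ^ 2 + ‖(r 1).1 w‖ ^ 2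

theorem archN_nonneg263 (r : Fin 2 → Adl K) (w : InfinitePlace K) : 0 ≤ archN263 r w := by
  unfold archN263
  positivity

/-- The finite part of `rowNorm`. -/
def finN263 (r : Fin 2 → Adl K) : ℝ :=
  ∏ᶠ v : HeightOneSpectrum (𝓞 K), max ‖(r 0).2 v‖ ‖(r 1).2 v‖

theorem finN_nonneg263 (r : Fin 2 → Adl K) : 0 ≤ finN263 r :=
  finprod_nonneg fun _ => le_max_of_le_left (norm_nonneg _)

omit [NumberField K] in
theorem mult_eq_two263 (hcplx : TotCplx K) (w : InfinitePlace K) : w.mult = 2 :=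
  (hcplx w).mult_eq_two

theorem rowNorm_eq263 (hcplx : TotCplx K) (r : Fin 2 → Adl K) :
    rowNorm r = (∏ w : InfinitePlace K, archN263 r w) * finN263 r := by
  unfold rowNorm finN263
  congr 1
  refine Finset.prod_congr rfl fun w _ => ?_
  rw [mult_eq_two263 hcplx w]
  have : ((2 : ℕ) : ℝ) / 2 = 1 := by norm_num
  rw [this, Real.rpow_one]
  rfl

theorem adNorm_eq263 (hcplx : TotCplx K) (a : Adl K) :
    Fermat.Agent.LT.T5.adNorm a
      = (∏ w : InfinitePlace K, ‖a.1 w‖ ^ 2)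
        * ∏ᶠ v : HeightOneSpectrum (𝓞 K), ‖a.2 v‖ := by
  unfold Fermat.Agent.LT.T5.adNorm
  congr 1
  refine Finset.prod_congr rfl fun w _ => ?_
  rw [mult_eq_two263 hcplx w]

/-- **Separation at one infinite place.** -/
theorem sep_core263 (hcplx : TotCplx K) (r r' : Fin 2 → Adl K) (D : (Adl K)ˣ)
    (hD : (D : Adl K) = r 0 * r' 1 - r 1 * r' 0)
    (hr : Function.HasFiniteMulSupport fun v : HeightOneSpectrum (𝓞 K) =>
      max ‖(r 0).2 v‖ ‖(r 1).2 v‖)
    (hr' : Function.HasFiniteMulSupport fun v : HeightOneSpectrum (𝓞 K) =>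
      max ‖(r' 0).2 v‖ ‖(r' 1).2 v‖)
    (Y : ℝ) (hY : 0 < Y)
    (h1 : rowNorm r ^ 2 * Y ≤ Fermat.Agent.LT.T5.adNorm (D : Adl K))
    (h2 : rowNorm r' ^ 2 * Y ≤ Fermat.Agent.LT.T5.adNorm (D : Adl K))
    (w₀ : InfinitePlace K) :
    Y * (archN263 r w₀ * archN263 r' w₀)
      ≤ ‖(r 0).1 w₀ * (r' 1).1 w₀ - (r 1).1 w₀ * (r' 0).1 w₀‖ ^ 2 := by
  classical
  set A : ℝ := Fermat.Agent.LT.T5.adNorm (D : Adl K) with hA_def
  have hA : 0 < A := Fermat.Agent.LT.T1.H309.adNorm_pos309 K D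
  have hR0 : 0 ≤ rowNorm r := by
    rw [rowNorm_eq263 hcplx]
    exact mul_nonneg (Finset.prod_nonneg fun w _ => archN_nonneg263 r w) (finN_nonneg263 r)
  have hR0' : 0 ≤ rowNorm r' := by
    rw [rowNorm_eq263 hcplx]
    exact mul_nonneg (Finset.prod_nonneg fun w _ => archN_nonneg263 r' w) (finN_nonneg263 r')
  -- geometric mean
  have hgm : rowNorm r * rowNorm r' * Y ≤ A := by
    by_contra hcon
    have hlt : A < rowNorm r * rowNorm r' * Y := not_le.mp hcon
    have h3 : A * A < (rowNorm r * rowNorm r' * Y) * (rowNorm r * rowNorm r' * Y) :=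
      mul_self_lt_mul_self hA.le hlt
    have h4 : (rowNorm r * rowNorm r' * Y) * (rowNorm r * rowNorm r' * Y)
        = (rowNorm r ^ 2 * Y) * (rowNorm r' ^ 2 * Y) := by ring
    have h5 : (rowNorm r ^ 2 * Y) * (rowNorm r' ^ 2 * Y) ≤ A * A :=
      mul_le_mul h1 h2 (by positivity) hA.le
    linarith
  -- the local inequalities
  have hDw : ∀ w : InfinitePlace K, ‖(D : Adl K).1 w‖ ^ 2 ≤ archN263 r w * archN263 r' w := by
    intro w
    have e : (D : Adl K).1 w = (r 0).1 w * (r' 1).1 w - (r 1).1 w * (r' 0).1 w := by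
      rw [hD]
      rfl
    rw [e]
    have := hadamard263 ((r 0).1 w) ((r 1).1 w) ((r' 0).1 w) ((r' 1).1 w)
    exact this
  have hDw₀ : (D : Adl K).1 w₀ = (r 0).1 w₀ * (r' 1).1 w₀ - (r 1).1 w₀ * (r' 0).1 w₀ := by
    rw [hD]
    rfl
  rw [← hDw₀]
  have hfin := fin_det_le263 r r' D hD hr hr'
  -- split off `w₀`
  set E : ℝ := ∏ w ∈ (Finset.univ : Finset (InfinitePlace K)).erase w₀,
    archN263 r w * archN263 r' w with hE_def
  have hE0 : 0 ≤ E :=
    Finset.prod_nonneg fun w _ => mul_nonneg (archN_nonneg263 r w) (archN_nonneg263 r' w)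
  have hAle : A ≤ ‖(D : Adl K).1 w₀‖ ^ 2 * E * (finN263 r * finN263 r') := by
    rw [hA_def, adNorm_eq263 hcplx,
      ← Finset.mul_prod_erase Finset.univ (fun w => ‖(D : Adl K).1 w‖ ^ 2) (Finset.mem_univ w₀)]
    refine mul_le_mul ?_ hfin (finprod_nonneg fun _ => norm_nonneg _)
      (mul_nonneg (by positivity) hE0)
    refine mul_le_mul_of_nonneg_left ?_ (by positivity)
    exact Finset.prod_le_prod (fun w _ => by positivity) (fun w _ => hDw w)
  have hRR : rowNorm r * rowNorm r'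
      = archN263 r w₀ * archN263 r' w₀ * E * (finN263 r * finN263 r') := by
    rw [rowNorm_eq263 hcplx, rowNorm_eq263 hcplx, hE_def, Finset.prod_mul_distrib,
      ← Finset.mul_prod_erase Finset.univ (fun w => archN263 r w) (Finset.mem_univ w₀),
      ← Finset.mul_prod_erase Finset.univ (fun w => archN263 r' w) (Finset.mem_univ w₀)]
    ring
  set P : ℝ := E * (finN263 r * finN263 r') with hP_def
  have hP0 : 0 ≤ P := mul_nonneg hE0 (mul_nonneg (finN_nonneg263 r) (finN_nonneg263 r'))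
  have hPpos : 0 < P := by
    rcases hP0.lt_or_eq with h | h
    · exact h
    · exfalso
      have : A ≤ 0 := by
        calc A ≤ ‖(D : Adl K).1 w₀‖ ^ 2 * E * (finN263 r * finN263 r') := hAle
          _ = ‖(D : Adl K).1 w₀‖ ^ 2 * P := by rw [hP_def]; ring
          _ = 0 := by rw [← h, mul_zero]
      linarith
  have hkey : Y * (archN263 r w₀ * archN263 r' w₀) * P ≤ ‖(D : Adl K).1 w₀‖ ^ 2 * P := by
    calc Y * (archN263 r w₀ * archN263 r' w₀) * P
        = rowNorm r * rowNorm r' * Y := by rw [hRR, hP_def]; ring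
      _ ≤ A := hgm
      _ ≤ ‖(D : Adl K).1 w₀‖ ^ 2 * E * (finN263 r * finN263 r') := hAle
      _ = ‖(D : Adl K).1 w₀‖ ^ 2 * P := by rw [hP_def]; ring
  exact le_of_mul_le_mul_right hkey hPpos

/-- A nonzero rational row does not vanish at an infinite place. -/
theorem row_ne_zero263 (x : Fin 2 → K) (hx : x ≠ 0) (g : G K) (w : InfinitePlace K) :
    (rowOf x g 0).1 w ≠ 0 ∨ (rowOf x g 1).1 w ≠ 0 := by
  by_contra hcon
  push Not at hcon
  obtain ⟨h0, h1⟩ := hcon
  apply hx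
  funext i
  have e : (algebraMap K (Adl K) (x i)).1 w
      = (rowOf x g 0).1 w * (((g⁻¹ : G K) : Matrix (Fin 2) (Fin 2) (Adl K)) 0 i).1 w
        + (rowOf x g 1).1 w * (((g⁻¹ : G K) : Matrix (Fin 2) (Fin 2) (Adl K)) 1 i).1 w := by
    rw [← rowOf_inv263 x g i]
    rfl
  rw [h0, h1, zero_mul, zero_mul, add_zero] at e
  have h2 := Fermat.Agent.LT.T1.H309.infNorm309 K (x i) w
  rw [e, norm_zero] at h2
  exact (map_eq_zero w).mp h2.symm

/-! ## The leaf -/

/-- **LEAF `CountBddC`**, every number field, `C = 98`. -/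
theorem countBddC263 (K : Type) [Field K] [NumberField K] :
    Fermat.Agent.LT.T7.H671.CountBddC K := by
  intro hcplx 𝔪 _
  refine ⟨98, fun g Y hY hY1 => ?_⟩
  by_cases hfin : (cntSet 𝔪 Y g).Finite
  · obtain ⟨w₀⟩ : Nonempty (InfinitePlace K) := inferInstance
    have hcard : cnt 𝔪 Y g = hfin.toFinset.card := by
      unfold cnt
      rw [Nat.card_coe_set_eq, Set.ncard_eq_toFinset_card _ hfin]
    rw [hcard]
    have hiso : ∀ a : w₀.Completion,
        ‖InfinitePlace.Completion.extensionEmbedding w₀ a‖ = ‖a‖ := fun a =>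
      (InfinitePlace.Completion.isometry_extensionEmbedding w₀).norm_map_of_map_zero
        (map_zero _) a
    refine pack263 hfin.toFinset
      (fun x => InfinitePlace.Completion.extensionEmbedding w₀ ((rowOf x.rep g 0).1 w₀))
      (fun x => InfinitePlace.Completion.extensionEmbedding w₀ ((rowOf x.rep g 1).1 w₀))
      Y hY hY1 ?_ ?_
    · intro x _
      rcases row_ne_zero263 x.rep x.rep_nonzero g w₀ with h | h
      · exact Or.inl ((map_ne_zero _).mpr h)
      · exact Or.inr ((map_ne_zero _).mpr h)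
    · intro x hx x' hx' hne
      rw [Set.Finite.mem_toFinset] at hx hx'
      have hδ := det_rep_ne_zero263 hne
      have hD := rowsUnit_val263 _ hδ g
      rw [← det_rows263] at hD
      have hx1 : rowNorm (rowOf x.rep g) ^ 2 * Y
          ≤ Fermat.Agent.LT.T5.adNorm (rowsUnit263 _ hδ g : Adl K) := by
        rw [adNorm_rowsUnit263]
        exact hx.1
      have hx1' : rowNorm (rowOf x'.rep g) ^ 2 * Y
          ≤ Fermat.Agent.LT.T5.adNorm (rowsUnit263 _ hδ g : Adl K) := by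
        rw [adNorm_rowsUnit263]
        exact hx'.1
      have hsep := sep_core263 hcplx (rowOf x.rep g) (rowOf x'.rep g) (rowsUnit263 _ hδ g) hD
        (hasFiniteMulSupport_rowMax263 x.rep x.rep_nonzero g)
        (hasFiniteMulSupport_rowMax263 x'.rep x'.rep_nonzero g) Y hY hx1 hx1' w₀
      unfold archN263 at hsep
      rw [hiso, hiso, hiso, hiso, ← map_mul, ← map_mul, ← map_sub, hiso]
      exact hsep
  · have h0 : cnt 𝔪 Y g = 0 := by
      unfold cnt
      rw [Nat.card_coe_set_eq]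
      exact Set.Infinite.ncard hfin
    rw [h0, Nat.cast_zero, mul_zero]
    norm_num

end Fermat.Agent.LT.T7.H263

end
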